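/-
Hecke operators are self-adjoint for the twisted pairing (owner: helper91).

`T_q (φ) ∘ W = cor (res₂ (φ ∘ W))` for every prime `q`; with the adjunction of restriction and
transfer and the invariance of the intersection pairing under `W` this gives
`⟨T_q x, y⟩ = ⟨x, T_q y⟩` for `twistedPairing`, also for `q ∣ N`.
-/
import Fermat.Agent.R59.FrickeHecke

set_option autoImplicit false
set_option linter.unusedSectionVars false

noncomputable section

open CongruenceSubgroup Matrix Function
open scoped MatrixGroups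

namespace Fermat.Agent.R59

open LR CongMod HK

variable {N q : ℕ} [NeZero N] [hq : Fact q.Prime]

theorem frickeConj_diag_starRep (hqN : q ∣ N) (j : Fin q) :
    frickeConj N (diagMat q * matOf (starRep N (j : ℤ))) = heckeMat (upperEquiv hqN j) := by
  have hN : (N : ℤ) ≠ 0 := Int.natCast_ne_zero.mpr (NeZero.ne N)
  show frickeConj N (diagMat q * matOf (starRep N (j : ℤ))) = heckeMat (HeckeIdx.upper N j)
  ext r c
  fin_cases r <;> fin_cases c <;>
    simp [frickeConj, matOf, starRep, Matrix.mul_apply, Fin.sum_univ_two,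
      Int.neg_ediv_of_dvd, Int.mul_ediv_cancel_left _ hN]

/-- `T_q φ ∘ W = cor (res₂ (φ ∘ W))` for every prime `q`. -/
theorem heckeHom_frickeHom_eq_heckeDeg [NeZero q] {A : Type*} [AddCommGroup A] {R : Type*}
    [Semiring R] [Module R A] (φ : Hom1 N A) (g : Gamma0 N) :
    heckeHom N q R A φ (Additive.ofMul (frickeHom N g)) =
      heckeDeg N q (φ.comp (MonoidHom.toAdditive (frickeHom N))) (Additive.ofMul g) := by
  by_cases hqN : q ∣ N
  swap
  · rw [heckeHom_comp_frickeHom hqN, heckeHom_eq_heckeDeg hqN]
  set c : Fin q → Gamma0 N := fun j => starRep N (j : ℤ)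
  have hc := starRep_bijective N hq.out hqN
  set σ := repPerm c hc g
  have hmem := repPerm_mem c hc g
  set dl : Fin q → Gamma0 N := fun j =>
    deltaGamma0 N q ⟨((c j * g * (c (σ j))⁻¹ : Gamma0 N) : SL(2, ℤ)), hmem j⟩
  rw [← res_heckeDeg_eq, cor_apply c hc _ g σ hmem]
  refine heckeHom_apply_eq_of_reps (upperEquiv hqN) (fun _ => 1) φ (frickeHom N g) σ
    (fun j => frickeHom N (dl j)) fun j => ?_
  simp only [OneMemClass.coe_one, Matrix.SpecialLinearGroup.coe_one, one_mul]
  show matOf (frickeHom N (dl j)) * heckeMat (upperEquiv hqN (σ j)) =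
    heckeMat (upperEquiv hqN j) * matOf (frickeHom N g)
  have hd : ∀ i : Fin q, (N : ℤ) ∣ (diagMat q * matOf (c i)) 1 0 := fun i => by
    simp [Matrix.mul_apply, Fin.sum_univ_two, dvd_matOf N (c i)]
  rw [← frickeConj_diag_starRep hqN, ← frickeConj_diag_starRep hqN, matOf_frickeHom,
    matOf_frickeHom, ← frickeConj_mul N (dvd_matOf N _) (hd _),
    ← frickeConj_mul N (hd _) (dvd_matOf N _)]
  refine congrArg (frickeConj N) ?_
  rw [← Matrix.mul_assoc, matOf_deltaGamma0, Matrix.mul_assoc, Matrix.mul_assoc]
  refine congrArg _ ?_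
  show matOf (c j * g * (c (σ j))⁻¹) * matOf (c (σ j)) = matOf (c j) * matOf g
  rw [← matOf_mul, ← matOf_mul, inv_mul_cancel_right]

variable {R : Type} [CommRing R]

theorem frickeP_frickeP (x : HP R N) : frickeP R N (frickeP R N x) = x := by
  refine Subtype.ext (AddMonoidHom.ext fun g => ?_)
  obtain ⟨g, rfl⟩ := Additive.ofMul.surjective g
  show (x : Hom1 N R) (Additive.ofMul (frickeHom N (frickeHom N g))) = _
  rw [frickeHom_frickeHom]

/-- `W T_q W = cor ∘ res₂` on parabolic homomorphisms. -/
theorem coe_fricke_heckeP_fricke [NeZero q] (x : HP R N) :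
    (frickeP R N (heckeP R N q (frickeP R N x)) : Hom1 N R) =
      cor N q (res₂P R N q x : Hom1 (N * q) R) := by
  refine AddMonoidHom.ext fun g => ?_
  obtain ⟨g, rfl⟩ := Additive.ofMul.surjective g
  rw [frickeP_apply, coe_heckeP, coe_res₂P, res_heckeDeg_eq, heckeHom_frickeHom_eq_heckeDeg]
  refine congrArg (fun F : Hom1 N R => heckeDeg N q F (Additive.ofMul g)) ?_
  exact congrArg Subtype.val (frickeP_frickeP x)

variable [IsAddTorsionFree R]

theorem pairP_frickeP (x y : HP R N) :
    pairP R N (frickeP R N x) (frickeP R N y) = pairP R N x y :=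
  Pairing.pairing_conj (isConjBy_frickeEquiv N) x y _ _ (fun _ => rfl) fun _ => rfl

theorem pairP_fricke_heckeP_fricke [NeZero q] (a b : HP R N) :
    pairP R N a (frickeP R N (heckeP R N q (frickeP R N b))) =
      pairP R N (frickeP R N (heckeP R N q a)) (frickeP R N b) := by
  have h : ∀ u v : HP R N, pairP R (N * q) (resP R N q u) (res₂P R N q v) =
      pairP R N u (frickeP R N (heckeP R N q (frickeP R N v))) := fun u v =>
    pairP_resP_left u _ _ (coe_fricke_heckeP_fricke v)
  rw [← h, ← pairP_frickeP (resP R N q a), frickeP_resP, frickeP_res₂P, Pairing.pairing_skew,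
    h, Pairing.pairing_skew, neg_neg, frickeP_frickeP]

/-- **Hecke operators are self-adjoint for the twisted pairing**, at every prime. -/
theorem twistedPairing_heckeEnd (x y : HK.HSpace N R) :
    twistedPairing N R (HK.heckeEnd N q R x) y = twistedPairing N R x (HK.heckeEnd N q R y) := by
  have : NeZero q := ⟨hq.out.ne_zero⟩
  rw [twistedPairing_eq, twistedPairing_eq, toParHom_heckeEnd, toParHom_heckeEnd]
  set a := HK.HSpace.toParHom N R x
  set b := HK.HSpace.toParHom N R y
  have h := pairP_fricke_heckeP_fricke (q := q) a (frickeP R N b)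
  rw [frickeP_frickeP] at h
  rw [h]
  exact (pairP_frickeP _ _).symm.trans (by rw [frickeP_frickeP])

end Fermat.Agent.R59
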