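/-
The algebra of operators of full level and the functionals on the eigen lattice (owner: helper91).

* `opAlg`: the algebra generated by the `T_l`, `U_l`, `l ∤ baseLevel`, acting on `H(fullLevel, 𝒪)`;
* `twistedPairing_opAlg`: it consists of self-adjoint operators for the twisted pairing;
* `exists_char_opAlg`: it acts by a character on the top eigen lattice;
* `exists_twistedPairing_eq`: functionals on an eigen lattice come from the twisted pairing.
-/
import Fermat.Agent.R59.Top.Adjoint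
import Fermat.Agent.R59.RaiseStep
import Mathlib.Algebra.Module.Projective

set_option autoImplicit false
set_option linter.unusedSectionVars false

noncomputable section

open CongruenceSubgroup Function IsLocalRing
open scoped MatrixGroups

namespace Fermat.Agent.R59

open HK

section Pairing

variable {𝒪 : Type} [CommRing 𝒪] [IsDomain 𝒪] [IsDiscreteValuationRing 𝒪] [CharZero 𝒪]
  {N : ℕ} [NeZero N]

/-- **Functionals on an eigen lattice are given by the twisted pairing.** -/
theorem exists_twistedPairing_eq (T : Set ℕ) (e : ℕ → 𝒪)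
    (φ : eigenClasses N 𝒪 T e →ₗ[𝒪] 𝒪) :
    ∃ m : HSpace N 𝒪, ∀ l : eigenClasses N 𝒪 T e, twistedPairing N 𝒪 m l = φ l := by
  have := finite_hSpace (𝒪 := 𝒪) N
  let Q := eigenClasses N 𝒪 T e
  have : Module.IsTorsionFree 𝒪 (HSpace N 𝒪 ⧸ Q) := by
    refine Module.IsTorsionFree.of_smul_eq_zero fun c m => ?_
    induction m using Submodule.Quotient.induction_on with
    | H u =>
      intro h
      rw [← Submodule.Quotient.mk_smul, Submodule.Quotient.mk_eq_zero] at h
      by_cases hc : c = 0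
      · exact Or.inl hc
      · exact Or.inr ((Submodule.Quotient.mk_eq_zero Q).mpr
          (eigenClasses_saturated N T e c u hc h))
  have : Module.Free 𝒪 (HSpace N 𝒪 ⧸ Q) := Module.free_of_finite_type_torsion_free'
  obtain ⟨s, hs⟩ := Module.projective_lifting_property Q.mkQ LinearMap.id Q.mkQ_surjective
  let π : HSpace N 𝒪 →ₗ[𝒪] Q := LinearMap.codRestrict Q (LinearMap.id - s ∘ₗ Q.mkQ) fun u => by
    rw [← Submodule.Quotient.mk_eq_zero (p := Q)]
    show Q.mkQ (u - s (Q.mkQ u)) = 0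
    rw [map_sub, ← LinearMap.comp_apply Q.mkQ s, hs, LinearMap.id_apply, sub_self]
  have hπ : ∀ u : Q, π u = u := fun u => Subtype.ext (by
    show (u : HSpace N 𝒪) - s (Q.mkQ u) = u
    rw [show Q.mkQ (u : HSpace N 𝒪) = 0 from (Submodule.Quotient.mk_eq_zero Q).mpr u.2, map_zero,
      sub_zero])
  obtain ⟨ψ, hψ⟩ := Pairing.pairing_surjective (Γ := Gamma0 N)
    (-(φ ∘ₗ π ∘ₗ (HSpace.toParHom N 𝒪).symm.toLinearMap))
  refine ⟨fricke N 𝒪 ((HSpace.toParHom N 𝒪).symm ψ), fun l => ?_⟩
  rw [twistedPairing_skew, twistedPairing_apply, fricke_fricke]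
  simp only [basicPairing, LinearMap.compl₁₂_apply, LinearEquiv.coe_coe,
    LinearEquiv.apply_symm_apply, hψ]
  simp [hπ, Q]

end Pairing

variable {W : WeierstrassCurve ℤ} {p : ℕ} {k : Kind} (U : Setup W p k)
  [NeZero (fullLevel W p k)]

/-- The operators at the primes not dividing the base level. -/
def opGens : Set (Module.End U.𝒪 (HSpace (fullLevel W p k) U.𝒪)) :=
  {a | ∃ (l : ℕ) (hl : l.Prime), ¬ l ∣ baseLevel W p k ∧
    a = (haveI := Fact.mk hl; heckeEnd (fullLevel W p k) l U.𝒪)}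

/-- The algebra they generate. -/
def opAlg : Subalgebra U.𝒪 (Module.End U.𝒪 (HSpace (fullLevel W p k) U.𝒪)) :=
  Algebra.adjoin U.𝒪 (opGens U)

variable {U}

theorem heckeEnd_mem_opAlg {l : ℕ} [hl : Fact l.Prime] (h : ¬ l ∣ baseLevel W p k) :
    heckeEnd (fullLevel W p k) l U.𝒪 ∈ opAlg U :=
  Algebra.subset_adjoin ⟨l, hl.out, h, rfl⟩

theorem heckeEnd_commute (l r : ℕ) [hl : Fact l.Prime] [hr : Fact r.Prime] :
    Commute (heckeEnd (fullLevel W p k) l U.𝒪) (heckeEnd (fullLevel W p k) r U.𝒪) := by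
  have h1 := heckeAct_heckeFormsGen (fullLevel W p k) U.𝒪 ⟨l, hl.out⟩
  have h2 := heckeAct_heckeFormsGen (fullLevel W p k) U.𝒪 ⟨r, hr.out⟩
  rw [← h1, ← h2]
  exact (Commute.all _ _).map (heckeAct (fullLevel W p k) U.𝒪)

theorem opAlg_commute {a b : Module.End U.𝒪 (HSpace (fullLevel W p k) U.𝒪)}
    (ha : a ∈ opAlg U) (hb : b ∈ opAlg U) : a * b = b * a := by
  have := Algebra.isMulCommutative_adjoin U.𝒪 (s := opGens U) (by
    rintro _ ⟨l, hl, -, rfl⟩ _ ⟨r, hr, -, rfl⟩
    exact @heckeEnd_commute _ _ _ U _ l r ⟨hl⟩ ⟨hr⟩)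
  exact congrArg Subtype.val (mul_comm' (⟨a, ha⟩ : Algebra.adjoin U.𝒪 (opGens U)) ⟨b, hb⟩)

/-- The commutative ring structure. -/
instance instCommRingOpAlg : CommRing (opAlg U) :=
  { (inferInstance : Ring (opAlg U)) with
    mul_comm := fun a b => Subtype.ext (opAlg_commute a.2 b.2) }

theorem twistedPairing_opAlg {a : Module.End U.𝒪 (HSpace (fullLevel W p k) U.𝒪)}
    (ha : a ∈ opAlg U) (x y : HSpace (fullLevel W p k) U.𝒪) :
    twistedPairing (fullLevel W p k) U.𝒪 (a x) y = twistedPairing (fullLevel W p k) U.𝒪 x (a y) := by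
  induction ha using Algebra.adjoin_induction generalizing x y with
  | mem b hb =>
    obtain ⟨l, hl, -, rfl⟩ := hb
    exact @twistedPairing_heckeEnd _ _ _ ⟨hl⟩ _ _ _ x y
  | algebraMap c => simp [Module.algebraMap_end_apply]
  | add b c _ _ hb hc => simp [hb, hc]
  | mul b c hb' hc' hb hc =>
    rw [Module.End.mul_apply, hb, hc, ← Module.End.mul_apply, opAlg_commute hc' hb']

/-- The algebra acts by scalars on the top eigen lattice. -/
theorem exists_scalar_topEigen (a : opAlg U) :
    ∃ c : U.𝒪, ∀ x ∈ U.topEigen, a.1 x = c • x := by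
  obtain ⟨a, ha⟩ := a
  induction ha using Algebra.adjoin_induction with
  | mem b hb =>
    obtain ⟨l, hl, hlB, rfl⟩ := hb
    exact ⟨U.topValue l, fun x hx => @(mem_eigenClasses _ U.𝒪).mp hx l hlB ⟨hl⟩⟩
  | algebraMap c => exact ⟨c, fun x _ => rfl⟩
  | add b c _ _ hb hc =>
    obtain ⟨u, hu⟩ := hb
    obtain ⟨v, hv⟩ := hc
    exact ⟨u + v, fun x hx => by
      show b x + c x = _
      rw [hu x hx, hv x hx, add_smul]⟩
  | mul b c _ _ hb hc =>
    obtain ⟨u, hu⟩ := hb
    obtain ⟨v, hv⟩ := hc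
    exact ⟨v * u, fun x hx => by
      show b (c x) = _
      rw [hv x hx, map_smul, hu x hx, smul_smul]⟩

/-- **The character of the top eigen lattice.** -/
theorem exists_char_opAlg {x₀ : HSpace (fullLevel W p k) U.𝒪} (hx₀ : x₀ ∈ U.topEigen)
    (h0 : x₀ ≠ 0) :
    ∃ χ : opAlg U →ₐ[U.𝒪] U.𝒪, ∀ (a : opAlg U), ∀ x ∈ U.topEigen, a.1 x = χ a • x := by
  choose c hc using exists_scalar_topEigen (U := U)
  have huniq : ∀ u v : U.𝒪, u • x₀ = v • x₀ → u = v := fun u v h => by
    by_contra hne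
    refine h0 (hSpace_smul_cancel (sub_ne_zero.mpr hne) ?_)
    rw [smul_zero, sub_smul, h, sub_self]
  refine ⟨{ toFun := c
            map_one' := huniq _ _ (by rw [← hc 1 x₀ hx₀, one_smul]; rfl)
            map_mul' := fun a b => huniq _ _ (by
              rw [← hc (a * b) x₀ hx₀]
              show a.1 (b.1 x₀) = _
              rw [hc b x₀ hx₀, map_smul, hc a x₀ hx₀, smul_smul, mul_comm])
            map_zero' := huniq _ _ (by rw [← hc 0 x₀ hx₀, zero_smul]; rfl)
            map_add' := fun a b => huniq _ _ (by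
              rw [← hc (a + b) x₀ hx₀, add_smul, ← hc a x₀ hx₀, ← hc b x₀ hx₀]; rfl)
            commutes' := fun r => huniq _ _ (by
              rw [← hc _ x₀ hx₀]; rfl) }, hc⟩

/-- The Hecke algebra of full level maps to the algebra of operators. -/
theorem heckeAct_mem_opAlg {S : Set ℕ}
    (hS : ∀ l : ℕ, l.Prime → l ∣ baseLevel W p k → l ∈ S)
    (t : CuspForm.heckeAlgebra (fullLevel W p k) 2 S) :
    heckeAct (fullLevel W p k) U.𝒪
      (Subalgebra.inclusion (CuspForm.heckeAlgebra_mono (Set.empty_subset S)) t) ∈ opAlg U := by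
  obtain ⟨t, ht⟩ := t
  induction ht using Algebra.adjoin_induction with
  | mem b hb =>
    obtain ⟨l, hl, hlN, hlS, rfl⟩ | ⟨l, hlN, hl, hlS, rfl⟩ := hb
    all_goals
      have : Fact l.Prime := ⟨hl⟩
      have h := heckeAct_heckeFormsGen (fullLevel W p k) U.𝒪 ⟨l, hl⟩
      have hmem : heckeEnd (fullLevel W p k) l U.𝒪 ∈ opAlg U :=
        heckeEnd_mem_opAlg fun hd => hlS (hS l hl hd)
      rw [← h] at hmem
      convert hmem using 3
      refine Subtype.ext ?_
      unfold CuspForm.heckeFormsGen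
      simp only [hlN, ↓reduceDIte]
      rfl
  | algebraMap c =>
    have h := (heckeAct (fullLevel W p k) U.𝒪).toIntAlgHom.commutes c
    exact (congrArg (· ∈ opAlg U) h).mpr (Subalgebra.intCast_mem _ c)
  | add b c hb' hc' hb hc =>
    have h := add_mem hb hc
    rw [← map_add] at h
    exact h
  | mul b c hb' hc' hb hc =>
    have h := mul_mem hb hc
    rw [← map_mul] at h
    exact h

end Fermat.Agent.R59
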