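/-
Relations of `U_q` on the good eigenspace of a newform (owner: helper91).

* `heckeTLin_eq_of_eigen_away`: one missing good operator follows from the others;
* `qCoeff_rec_two`: at level `N q q`, `U (U² - a U + q) = 0`;
* `qCoeff_rec_one`: at level `N q`, `U² - a U + q = 0`.
-/
import Fermat.Agent.R59.RaiseForms

set_option autoImplicit false

noncomputable section

open CongruenceSubgroup ModularFormClass
open scoped MatrixGroups

namespace Fermat.Agent.R59

open Newforms

variable {M : ℕ} [NeZero M] {g : S2 M}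

/-- Eigen at all good primes but one, for the system of a newform, gives eigen at that one. -/
theorem heckeTLin_eq_of_eigen_away (hg : g.IsNewform) {K r : ℕ} [NeZero K] (hr : r.Prime)
    (hrK : ¬ r ∣ K) {f : S2 K}
    (hf : ∀ (l : ℕ) (hl : l.Prime) (hlK : ¬ l ∣ K), l ≠ r →
      CuspForm.heckeTLin 2 hl hlK f = qCoeff g l • f) :
    CuspForm.heckeTLin 2 hr hrK f = qCoeff g r • f := by
  have := MOD.cuspForm_finiteDimensional (N := K) (k := 2)
  set T := CuspForm.heckeTLin (N := K) 2 hr hrK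
  set D : Module.End ℂ (S2 K) := T - qCoeff g r • 1 with hD
  have hDapp : ∀ y, D y = T y - qCoeff g r • y := fun y => rfl
  let V : Submodule ℂ (S2 K) := ⨅ (l : ℕ) (hl : l.Prime) (hlK : ¬ l ∣ K) (_ : l ≠ r),
    Module.End.eigenspace (CuspForm.heckeTLin 2 hl hlK) (qCoeff g l)
  have hV : ∀ y, y ∈ V ↔ ∀ (l : ℕ) (hl : l.Prime) (hlK : ¬ l ∣ K), l ≠ r →
      CuspForm.heckeTLin 2 hl hlK y = qCoeff g l • y := fun y => by
    simp [V, Submodule.mem_iInf]
  have hDV : ∀ y ∈ V, D y ∈ V := fun y hy => (hV _).2 fun l hl hlK hlr => by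
    have hc : CuspForm.heckeTLin 2 hl hlK (T y) = T (CuspForm.heckeTLin 2 hl hlK y) :=
      LinearMap.congr_fun (CuspForm.heckeTLin_comm 2 hl hlK hr hrK) y
    rw [hDapp, map_sub, map_smul, hc, (hV y).1 hy l hl hlK hlr, map_smul, smul_sub, smul_comm]
  by_contra hne
  set W := V.map D
  have hW0 : W ≠ ⊥ := fun h => hne (sub_eq_zero.1 ((Submodule.mem_bot ℂ).1
    (h ▸ Submodule.mem_map_of_mem ((hV f).2 hf) : D f ∈ (⊥ : Submodule ℂ (S2 K)))))
  have : Nontrivial W := Submodule.nontrivial_iff_ne_bot.2 hW0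
  have hTW : ∀ w ∈ W, T w ∈ W := by
    rintro _ ⟨y, hy, rfl⟩
    have e : T y = D y + qCoeff g r • y := by rw [hDapp, sub_add_cancel]
    refine ⟨T y, ?_, ?_⟩
    · rw [e]; exact add_mem (hDV y hy) (V.smul_mem _ hy)
    · rw [hDapp, hDapp, map_sub, map_smul]
  obtain ⟨μ, hμ⟩ := Module.End.exists_eigenvalue (T.restrict hTW)
  obtain ⟨⟨w, hw⟩, hwe, hw0⟩ := hμ.exists_hasEigenvector
  rw [Module.End.mem_eigenspace_iff] at hwe
  replace hwe : T w = μ • w := congrArg Subtype.val hwe
  replace hw0 : w ≠ 0 := fun h => hw0 (Subtype.ext h)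
  obtain ⟨y, hy, hyw⟩ := Submodule.mem_map.1 hw
  have hwV : w ∈ V := hyw ▸ hDV y hy
  classical
  obtain ⟨φ, hφ, hφl⟩ := exists_isNormalizedEigenform_of_eigenvector ∅
    (fun l => if l = r then μ else qCoeff g l) w hw0 (fun l hl hlK _ => by
      by_cases hlr : l = r
      · subst hlr; rw [if_pos rfl]; exact hwe
      · rw [if_neg hlr]; exact (hV w).1 hwV l hl hlK hlr)
  have hae : ∀ l : ℕ, l.Prime → l ∉ insert r K.primeFactors → qCoeff φ l = qCoeff g l :=
    fun l hl hlS => by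
      rw [Finset.mem_insert, not_or] at hlS
      rw [hφl l hl (fun d => hlS.2 (Nat.mem_primeFactors.2 ⟨hl, d, NeZero.ne K⟩))
        (Set.notMem_empty l), if_neg hlS.1]
  have hMK : M ∣ K := dvd_of_isNewform_of_eigenform hg hφ _ hae
  have hμa : μ = qCoeff g r := by
    have := qCoeff_eq_of_almost_all' hφ hg.1 _ hae hr hrK fun d => hrK (d.trans hMK)
    rwa [hφl r hr hrK (Set.notMem_empty r), if_pos rfl] at this
  subst hμa
  have hDw : D w = 0 := by rw [hDapp, hwe, sub_self]
  have hT := Petersson.isPetSymm_heckeTLin (k := 2) (N := K) hr hrK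
  have hreal := hT.conj_eigenvalue hw0 hwe
  refine hw0 ((Petersson.pet_self_eq_zero_iff w).1 ?_)
  have hsm : ∀ a b : S2 K,
      Petersson.pet 2 ⇑(D a) ⇑b = Petersson.pet 2 ⇑a ⇑(D b) := fun a b => by
    have h := hT a b
    rw [show CuspForm.heckeTLin 2 hr hrK a = D a + qCoeff g r • a by rw [hDapp, sub_add_cancel],
      show CuspForm.heckeTLin 2 hr hrK b = D b + qCoeff g r • b by rw [hDapp, sub_add_cancel],
      FunLike.coe_add, FunLike.coe_add, FunLike.coe_smul, FunLike.coe_smul,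
      Petersson.pet_add_left (Petersson.isNice_cuspForm (D a))
        ((Petersson.isNice_cuspForm a).const_smul _) (Petersson.isNice_cuspForm b),
      Petersson.pet_add_right (Petersson.isNice_cuspForm a) (Petersson.isNice_cuspForm (D b))
        ((Petersson.isNice_cuspForm b).const_smul _),
      Petersson.pet_smul_left (Petersson.isNice_cuspForm a) (Petersson.isNice_cuspForm b),
      Petersson.pet_smul_right (Petersson.isNice_cuspForm a) (Petersson.isNice_cuspForm b),
      hreal] at h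
    exact add_right_cancel h
  rw [show Petersson.pet 2 ⇑w ⇑w = Petersson.pet 2 ⇑(D y) ⇑w by rw [hyw], hsm, hDw,
    FunLike.coe_zero]
  exact Petersson.pet_zero_right (Petersson.isNice_cuspForm y)

variable {N q : ℕ} [NeZero N]

/-- `U (U² - a U + q) = 0` at level `N q q`. -/
theorem qCoeff_rec_two (hg : g.IsNormalizedEigenform) (hq : q.Prime) (hqM : ¬ q ∣ M)
    (hqN : ¬ q ∣ N) {K : ℕ} [NeZero K] (hK : K = N * q * q) {f : S2 K} (hf : f ∈ spanDegen g K)
    (n : ℕ) : qCoeff f (n * q * q * q) - qCoeff g q * qCoeff f (n * q * q) +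
      (q : ℂ) * qCoeff f (n * q) = 0 := by
  obtain ⟨x, hx, he⟩ := exists_decomp (N := N) hq hqM 2 (by rw [hK]; ring) hqN hf
  have hT := fun i => qCoeff_mul_of_spanDegen hg hq hqN (hx i)
  have hval : ∀ m, qCoeff f m = qCoeff (x 0) m + (if q ∣ m then qCoeff (x 1) (m / q) else 0) +
      (if q * q ∣ m then qCoeff (x 2) (m / (q * q)) else 0) := fun m => by
    rw [he, Finset.sum_range_succ, Finset.sum_range_succ, Finset.sum_range_one]
    simp [pow_two]
  have h3 : n * q * q * q / (q * q) = n * q := by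
    rw [mul_assoc (n * q), Nat.mul_div_cancel _ (Nat.mul_pos hq.pos hq.pos)]
  have h2 : n * q * q / (q * q) = n := by
    rw [mul_assoc, Nat.mul_div_cancel _ (Nat.mul_pos hq.pos hq.pos)]
  have d3 : q * q ∣ n * q * q * q := ⟨n * q, by ring⟩
  have d2 : q * q ∣ n * q * q := ⟨n, by ring⟩
  rw [hval, hval, hval, if_pos (dvd_mul_left q _), if_pos (dvd_mul_left q _),
    if_pos (dvd_mul_left q _), if_pos d3, if_pos d2, h3, h2, Nat.mul_div_cancel _ hq.pos,
    Nat.mul_div_cancel _ hq.pos, Nat.mul_div_cancel _ hq.pos, hT 0 (n * q * q),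
    if_pos (dvd_mul_left q _), Nat.mul_div_cancel _ hq.pos, hT 1 (n * q),
    if_pos (dvd_mul_left q _), Nat.mul_div_cancel _ hq.pos, hT 2 n]
  by_cases hn : q ∣ n
  · obtain ⟨m, rfl⟩ := hn
    rw [if_pos (dvd_mul_right q m), if_pos (show q * q ∣ q * m * q from ⟨m, by ring⟩),
      Nat.mul_div_cancel_left _ hq.pos, show q * m * q = m * (q * q) by ring,
      Nat.mul_div_cancel _ (Nat.mul_pos hq.pos hq.pos)]
    ring
  · rw [if_neg hn, if_neg fun d => hn ((Nat.mul_dvd_mul_iff_right hq.pos).1 d)]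
    ring

/-- `U² - a U + q = 0` at level `N q`. -/
theorem qCoeff_rec_one (hg : g.IsNormalizedEigenform) (hq : q.Prime) (hqM : ¬ q ∣ M)
    (hqN : ¬ q ∣ N) {K : ℕ} [NeZero K] (hK : K = N * q) {f : S2 K} (hf : f ∈ spanDegen g K)
    (n : ℕ) : qCoeff f (n * q * q) - qCoeff g q * qCoeff f (n * q) + (q : ℂ) * qCoeff f n = 0 := by
  obtain ⟨x, hx, he⟩ := exists_decomp (N := N) hq hqM 1 (by rw [hK]; ring) hqN hf
  have hT := fun i => qCoeff_mul_of_spanDegen hg hq hqN (hx i)
  have hval : ∀ m, qCoeff f m = qCoeff (x 0) m + (if q ∣ m then qCoeff (x 1) (m / q) else 0) :=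
    fun m => by
      rw [he, Finset.sum_range_succ, Finset.sum_range_one]
      simp
  rw [hval, hval, hval, if_pos (dvd_mul_left q _), if_pos (dvd_mul_left q _),
    Nat.mul_div_cancel _ hq.pos, Nat.mul_div_cancel _ hq.pos, hT 0 (n * q),
    if_pos (dvd_mul_left q _), Nat.mul_div_cancel _ hq.pos, hT 1 n]
  ring

end Fermat.Agent.R59
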