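/-
Polynomial relations of `U_q` on eigen lattices from those on cusp forms (owner: helper91).
-/
import Fermat.Agent.R59.RaiseLinAlg
import Mathlib.Algebra.Polynomial.AlgebraMap
import Mathlib.LinearAlgebra.Matrix.ToLin

set_option autoImplicit false

noncomputable section

open CongruenceSubgroup Matrix Function Polynomial
open scoped MatrixGroups

namespace Fermat.Agent.R59

open HK

variable (N : ℕ) [NeZero N] (q : ℕ) [hq : Fact q.Prime]

/-- The rows of `P(U_q) = 0`. -/
def polyRows {R : Type} [CommRing R] (P : R[X]) (i : Fin (MF.ParHom.parRank N)) :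
    Fin (MF.ParHom.parRank N) → R :=
  (aeval ((heckeMatZ N q).map (Int.castRingHom R)) P) i

theorem polyRows_map {R S : Type} [CommRing R] [CommRing S] (φ : R →+* S) (P : R[X])
    (i : Fin (MF.ParHom.parRank N)) : φ ∘ polyRows N q P i = polyRows N q (P.map φ) i := by
  have h : (φ.mapMatrix : Matrix (Fin (MF.ParHom.parRank N)) (Fin (MF.ParHom.parRank N)) R →+*
      Matrix (Fin (MF.ParHom.parRank N)) (Fin (MF.ParHom.parRank N)) S)
        (aeval ((heckeMatZ N q).map (Int.castRingHom R)) P) =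
      aeval ((heckeMatZ N q).map (Int.castRingHom S)) (P.map φ) := by
    rw [aeval_def, aeval_def, Polynomial.hom_eval₂, Polynomial.eval₂_map]
    refine congrArg₂ (fun a b => Polynomial.eval₂ a b P) ?_ ?_
    · refine RingHom.ext fun r => ?_
      ext a b
      simp [Matrix.algebraMap_matrix_apply, apply_ite φ]
    · ext a b
      simp
  funext j
  exact congrFun (congrFun h i) j

theorem polyRows_dotProduct {R : Type} [CommRing R] [IsAddTorsionFree R] (P : R[X])
    (i : Fin (MF.ParHom.parRank N)) (x : HSpace N R) :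
    polyRows N q P i ⬝ᵥ hCoord N R x = hCoord N R (aeval (heckeEnd N q R) P x) i := by
  have h : hMatrix N R (aeval (heckeEnd N q R) P) =
      aeval ((heckeMatZ N q).map (Int.castRingHom R)) P := by
    rw [← Polynomial.aeval_algHom_apply, hMatrix_heckeEnd]
  have e : hCoord N R (aeval (heckeEnd N q R) P x) =
      (aeval ((heckeMatZ N q).map (Int.castRingHom R)) P) *ᵥ hCoord N R x := by
    rw [← h]
    show _ = LinearMap.toMatrix' ((hCoord N R).conjAlgEquiv R (aeval (heckeEnd N q R) P)) *ᵥ _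
    rw [LinearMap.toMatrix'_mulVec]
    simp [LinearEquiv.conjAlgEquiv_apply]
  rw [e]
  rfl

theorem aeval_heckeEnd_periodEquiv (P : ℂ[X]) (f g : CuspForm (Gamma0 N) 2) :
    aeval (heckeEnd N q ℂ) P (periodEquiv N (f, g)) =
      periodEquiv N (aeval (heckeFormsLin N q) P f, aeval (heckeFormsLin N q) P g) := by
  induction P using Polynomial.induction_on generalizing f g with
  | C a =>
    simp only [aeval_C, Module.algebraMap_end_apply, ← map_smul, Prod.smul_mk]
  | add p r hp hr =>
    simp only [map_add, LinearMap.add_apply, hp, hr]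
    rw [← map_add, Prod.mk_add_mk]
  | monomial n a h =>
    have e : (C a * X ^ (n + 1) : ℂ[X]) = C a * X ^ n * X := by rw [pow_succ, mul_assoc]
    simp only [e, map_mul, Module.End.mul_apply, aeval_X, heckeEnd_periodEquiv]
    simpa only [map_mul, Module.End.mul_apply] using
      h (heckeFormsLin N q f) (heckeFormsLin N q g)

/-- **Transfer of a relation from cusp forms to the eigen lattice.** -/
theorem aeval_heckeEnd_eigenClasses_eq_zero {𝒪 : Type} [CommRing 𝒪] [IsDomain 𝒪]
    [IsPrincipalIdealRing 𝒪] [CharZero 𝒪] {F : Type} [Field F] (ι : F →+* FractionRing 𝒪)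
    (σ : F →+* ℂ) (T : Set ℕ) (e : ℕ → 𝒪) (e' : ℕ → F)
    (he : ∀ l : ℕ, l.Prime → l ∈ T → ι (e' l) = algebraMap 𝒪 (FractionRing 𝒪) (e l))
    (P : F[X]) (P₀ : 𝒪[X]) (hP : P.map ι = P₀.map (algebraMap 𝒪 (FractionRing 𝒪)))
    (hC : ∀ f ∈ formEigen N T (σ ∘ e'), aeval (heckeFormsLin N q) (P.map σ) f = 0)
    {x : HSpace N 𝒪} (hx : x ∈ eigenClasses N 𝒪 T e) : aeval (heckeEnd N q 𝒪) P₀ x = 0 := by
  set K := FractionRing 𝒪
  set v := eigRows N T e'
  set vw : _ ⊕ Fin (MF.ParHom.parRank N) → Fin (MF.ParHom.parRank N) → F :=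
    Sum.elim v (polyRows N q P) with hvw
  have hle : ∀ {L : Type} [Field L] (φ : F →+* L),
      kerRows (fun i => φ ∘ vw i) ≤ kerRows (fun i => φ ∘ v i) := fun {L} _ φ y hy =>
    mem_kerRows.2 fun i => mem_kerRows.1 hy (Sum.inl i)
  have hCeq : kerRows (fun i => σ ∘ v i) ≤ kerRows (fun i => σ ∘ vw i) := fun y hy => by
    rw [mem_kerRows] at hy ⊢
    obtain ⟨z, rfl⟩ := (hCoord N ℂ).surjective y
    have hz : z ∈ eigenClasses N ℂ T (σ ∘ e') := by
      rw [mem_eigenClasses]
      intro l hl hf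
      refine (hCoord N ℂ).injective (funext fun i => ?_)
      have h := hy (⟨l, hf.out, hl⟩, i)
      rw [eigRows_map, eigRows_dotProduct N T _ l hf.out hl i z, sub_eq_zero] at h
      rw [map_smul, Pi.smul_apply, smul_eq_mul, ← h]
    rintro (i | i)
    · exact hy i
    · show (σ ∘ polyRows N q P i) ⬝ᵥ _ = 0
      rw [polyRows_map, polyRows_dotProduct]
      obtain ⟨⟨f, g⟩, rfl⟩ := (periodEquiv N).surjective z
      have hfg : f ∈ formEigen N T (σ ∘ e') ∧ g ∈ formEigen N T (σ ∘ e') := by
        rw [mem_eigenClasses] at hz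
        have hl : ∀ l ∈ T, ∀ [Fact l.Prime], heckeFormsLin N l f = (σ ∘ e') l • f ∧
            heckeFormsLin N l g = (σ ∘ e') l • g := fun l hlT _ => by
          have := hz l hlT
          rw [heckeEnd_periodEquiv, ← map_smul, Prod.smul_mk] at this
          exact Prod.mk.inj ((periodEquiv N).injective this)
        exact ⟨mem_formEigen.2 fun l hlT _ => (hl l hlT).1,
          mem_formEigen.2 fun l hlT _ => (hl l hlT).2⟩
      rw [aeval_heckeEnd_periodEquiv, hC f hfg.1, hC g hfg.2,
        show ((0, 0) : CuspForm (Gamma0 N) 2 × CuspForm (Gamma0 N) 2) = 0 from rfl,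
        map_zero, map_zero, Pi.zero_apply]
  have hK : kerRows (fun i => ι ∘ vw i) = kerRows (fun i => ι ∘ v i) :=
    Submodule.eq_of_le_of_finrank_eq (hle ι) (by
      rw [finrank_kerRows_map, finrank_kerRows_map, ← finrank_kerRows_map σ v,
        ← finrank_kerRows_map σ vw, le_antisymm (hle σ) hCeq])
  have hxK : algebraMap 𝒪 K ∘ hCoord N 𝒪 x ∈ kerRows (fun i => ι ∘ v i) := by
    rw [mem_kerRows]
    rintro ⟨⟨l, hl, hlT⟩, i⟩
    have e1 : ι ∘ v (⟨l, hl, hlT⟩, i) = algebraMap 𝒪 K ∘ eigRows N T e (⟨l, hl, hlT⟩, i) := by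
      ext j
      simp only [v, eigRows, Function.comp_apply, map_sub, map_intCast, apply_ite, map_zero,
        he _ hl hlT]
      split_ifs <;> rfl
    rw [e1, ← map_dotProduct, eigRows_dotProduct N T e l hl hlT i x,
      @(mem_eigenClasses N 𝒪).mp hx l hlT ⟨hl⟩, map_smul, Pi.smul_apply, smul_eq_mul, sub_self,
      map_zero]
  refine (hCoord N 𝒪).injective (funext fun i => IsFractionRing.injective 𝒪 K ?_)
  rw [← hK, mem_kerRows] at hxK
  have := hxK (Sum.inr i)
  rw [show ι ∘ vw (Sum.inr i) = polyRows N q (P.map ι) i from polyRows_map N q ι P i, hP,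
    ← polyRows_map, ← map_dotProduct, polyRows_dotProduct] at this
  rw [this, map_zero, Pi.zero_apply, map_zero]

end Fermat.Agent.R59
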