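/-
Relations of the operators at `p` and at the raised primes on the good eigen classes of full level
(owner: helper91).
-/
import Fermat.Agent.R59.Raise
import Fermat.Agent.R59.Top.Relations
import Fermat.Agent.R59.Top.Transfer

set_option autoImplicit false

noncomputable section

open CongruenceSubgroup Function IsLocalRing Polynomial
open scoped MatrixGroups

namespace Fermat.Agent.R59

open ModularFormClass Newforms

variable {W : WeierstrassCurve ℤ} {p : ℕ} {k : Kind}

/-- The primes whose operators generate the Hecke algebra of full level away from the problem. -/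
def goodSet (W : WeierstrassCurve ℤ) (p : ℕ) (k : Kind) : Set ℕ :=
  {l | ¬ l ∣ fullLevel W p k ∧ l ∉ fullSet W p}

theorem baseLevel_dvd_fullLevel (W : WeierstrassCurve ℤ) (p : ℕ) (k : Kind) :
    baseLevel W p k ∣ fullLevel W p k := by
  refine mul_dvd_mul (dvd_mul_right _ _) (pow_dvd_pow p ?_)
  cases k <;> simp [Kind.base, Kind.pExp]

theorem ne_of_mem_ramPrimes {q : ℕ} (h : q ∈ ramPrimes W p) : q ≠ p := by
  simp only [ramPrimes, Finset.mem_filter] at h
  exact h.2.1

theorem ne_of_mem_raisePrimes {q : ℕ} (h : q ∈ raisePrimes W p) : q ≠ p := by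
  simp only [raisePrimes, Finset.mem_filter] at h
  exact h.2.1

theorem not_dvd_fullLevel_of_flat (hp : p.Prime) : ¬ p ∣ fullLevel W p .flat := by
  intro h
  rw [fullLevel, Kind.pExp, pow_zero, mul_one] at h
  rcases hp.dvd_mul.mp h with h | h
  · exact ne_of_mem_ramPrimes ((dvd_minLevel_iff W p hp).mp h) rfl
  · obtain ⟨x, hx, hpx⟩ := (hp.prime.dvd_finsetProd_iff _).mp (hp.dvd_of_dvd_pow h)
    exact ne_of_mem_raisePrimes hx
      ((Nat.prime_dvd_prime_iff_eq hp (prime_of_mem_raisePrimes W p hx)).mp hpx).symm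

theorem not_dvd_baseLevel_p (hp : p.Prime) : ¬ p ∣ baseLevel W p .ord := by
  intro h
  rw [baseLevel, Kind.base, Kind.pExp, pow_zero, mul_one] at h
  exact ne_of_mem_ramPrimes ((dvd_minLevel_iff W p hp).mp h) rfl

theorem p_notMem_raisePrimes : p ∉ raisePrimes W p := fun h => ne_of_mem_raisePrimes h rfl

/-- Every prime factor of the full level is a prime of the problem. -/
theorem mem_fullSet_of_dvd_fullLevel (hp : p.Prime) {l : ℕ} (hl : l.Prime) (h : l ∣ fullLevel W p k) :
    l ∈ fullSet W p := by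
  rw [fullLevel] at h
  rcases hl.dvd_mul.mp h with h | h
  · rcases hl.dvd_mul.mp h with h | h
    · exact Finset.mem_insert_of_mem (Finset.mem_union_left _ ((dvd_minLevel_iff W p hl).mp h))
    · obtain ⟨x, hx, hlx⟩ := (hl.prime.dvd_finsetProd_iff _).mp (hl.dvd_of_dvd_pow h)
      rw [(Nat.prime_dvd_prime_iff_eq hl (prime_of_mem_raisePrimes W p hx)).mp hlx]
      exact Finset.mem_insert_of_mem (Finset.mem_union_right _ hx)
  · rw [(Nat.prime_dvd_prime_iff_eq hl hp).mp (hl.dvd_of_dvd_pow h)]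
    exact Finset.mem_insert_self _ _

/-- A good prime of full level which is a prime of the problem is `p`. -/
theorem eq_of_not_mem_goodSet {l : ℕ} (hlN : ¬ l ∣ fullLevel W p k) (h : l ∈ fullSet W p) :
    l = p := by
  rcases Finset.mem_insert.mp h with h | h
  · exact h
  rcases Finset.mem_union.mp h with h | h
  · exact absurd ((Finset.dvd_prod_of_mem (fun q => q) h).trans
      ((dvd_mul_right _ _).mul_right _)) hlN
  · exact absurd (((Finset.dvd_prod_of_mem (fun q => q) h).trans (dvd_pow_self _ two_ne_zero)).trans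
      ((dvd_mul_left _ _).mul_right _)) hlN

/-- The newform of the base point and an embedding of its values. -/
theorem exists_base_newform (U : Setup W p k) [NeZero (baseLevel W p k)] :
    ∃ (F : Type) (_ : Field F) (ι : F →+* FractionRing U.𝒪) (σ : F →+* ℂ) (e' : ℕ → F) (M : ℕ)
      (_ : NeZero M) (g : S2 M), g.IsNewform ∧ M ∣ baseLevel W p k ∧
      (∀ l : ℕ, l.Prime → ¬ l ∣ baseLevel W p k →
        ι (e' l) = algebraMap U.𝒪 (FractionRing U.𝒪) (U.a l)) ∧
      ∀ l : ℕ, l.Prime → ¬ l ∣ baseLevel W p k → qCoeff g l = σ (e' l) := by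
  classical
  set B := baseLevel W p k
  have := charZero_fractionRing (𝒪 := U.𝒪)
  let F := algebraicClosure ℚ (FractionRing U.𝒪)
  have : Algebra.IsAlgebraic ℚ F := algebraicClosure.isAlgebraic ℚ (FractionRing U.𝒪)
  let σ : F →ₐ[ℚ] ℂ := IsAlgClosed.lift
  let ι : F →+* FractionRing U.𝒪 := F.val.toRingHom
  let e' : ℕ → F := fun l => if h : l.Prime ∧ ¬ l ∣ B then
    ⟨algebraMap U.𝒪 (FractionRing U.𝒪) (U.a l), mem_algebraicClosure_iff.mpr
      (isAlgVal_of_isIntegral (isIntegral_a U h.1 h.2)).isAlgebraic⟩ else 0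
  have he : ∀ l : ℕ, l.Prime → ¬ l ∣ B →
      ι (e' l) = algebraMap U.𝒪 (FractionRing U.𝒪) (U.a l) := fun l hl hlB => by
    rw [show e' l = _ from dif_pos ⟨hl, hlB⟩]
    rfl
  have hne : formEigen B {ℓ | ¬ ℓ ∣ B} (σ.toRingHom ∘ e') ≠ ⊥ := fun h => by
    refine finrank_baseEigen_ne_zero U ?_
    show Module.finrank U.𝒪 (eigenClasses B U.𝒪 {ℓ | ¬ ℓ ∣ B} U.a) = 0
    rw [finrank_eigenClasses_eq B ι σ.toRingHom {ℓ | ¬ ℓ ∣ B} U.a e' fun l hl hlB => he l hl hlB, h, finrank_bot, mul_zero]
  obtain ⟨M, hM, hMB, g, hg, hgl⟩ :=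
    exists_newform_formEigen (fun l _ hlB => hlB) hne
  exact ⟨F, inferInstance, ι, σ.toRingHom, e', M, ⟨hM.ne'⟩, g, hg, hMB, he, hgl⟩

/-- **The relations on the good eigen classes of full level.** -/
theorem goodClasses_relations (U : Setup W p k) (hp : p.Prime) [NeZero (baseLevel W p k)]
    [NeZero (fullLevel W p k)] {x : HK.HSpace (fullLevel W p k) U.𝒪}
    (hx : x ∈ eigenClasses (fullLevel W p k) U.𝒪 (goodSet W p k) U.a) :
    (¬ p ∣ fullLevel W p k → ∀ [Fact p.Prime],
      HK.heckeEnd (fullLevel W p k) p U.𝒪 x = U.a p • x) ∧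
    (k = .ord → ∀ [Fact p.Prime],
      aeval (HK.heckeEnd (fullLevel W p k) p U.𝒪)
        (X ^ 2 - C (U.a p) * X + C (p : U.𝒪)) x = 0) ∧
    ∀ q ∈ raisePrimes W p, ∀ [Fact q.Prime],
      aeval (HK.heckeEnd (fullLevel W p k) q U.𝒪)
        (X ^ 3 - C (U.a q) * X ^ 2 + C (q : U.𝒪) * X) x = 0 := by
  classical
  obtain ⟨F, _, ι, σ, e', M, _, g, hg, hMB, he, hgl⟩ := exists_base_newform U
  set N := fullLevel W p k with hN
  have hBN := baseLevel_dvd_fullLevel W p k
  have hgoodB : ∀ l ∈ goodSet W p k, ¬ l ∣ baseLevel W p k := fun l hl h => hl.1 (h.trans hBN)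
  have he' : ∀ l : ℕ, l.Prime → l ∈ goodSet W p k →
      ι (e' l) = algebraMap U.𝒪 (FractionRing U.𝒪) (U.a l) :=
    fun l hl hlT => he l hl (hgoodB l hlT)
  -- forms of the good system are old forms of `g`
  have hgood : ∀ f ∈ formEigen N (goodSet W p k) (σ ∘ e'), ∀ (l : ℕ) (hl : l.Prime) (hlN : ¬ l ∣ N),
      CuspForm.heckeTLin 2 hl hlN f = qCoeff g l • f := by
    intro f hf l hl hlN
    have hrest : ∀ (r : ℕ) (hr : r.Prime) (hrN : ¬ r ∣ N), r ≠ p →
        CuspForm.heckeTLin 2 hr hrN f = qCoeff g r • f := fun r hr hrN hrp => by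
      have hrT : r ∈ goodSet W p k := ⟨hrN, fun h => hrp (eq_of_not_mem_goodSet hrN h)⟩
      have := @mem_formEigen.1 hf r hrT ⟨hr⟩
      rwa [HK.heckeFormsLin, dif_neg hrN, Function.comp_apply, ← hgl r hr (hgoodB r hrT)] at this
    by_cases hlp : l = p
    · subst hlp
      exact heckeTLin_eq_of_eigen_away hg hl hlN hrest
    · exact hrest l hl hlN hlp
  have hspan : ∀ f ∈ formEigen N (goodSet W p k) (σ ∘ e'), f ∈ spanDegen g N :=
    fun f hf => mem_spanDegen hg N f (hgood f hf)
  have hU : ∀ (q : ℕ) [Fact q.Prime], q ∣ N → ∀ (f : S2 N) (n : ℕ),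
      qCoeff (HK.heckeFormsLin N q f) n = qCoeff f (n * q) :=
    fun q _ hqN f n => qCoeff_heckeFormsLin_of_dvd hqN f n
  refine ⟨fun hpN _ => ?_, fun hk _ => ?_, fun q hq _ => ?_⟩
  · have hpB : ¬ p ∣ baseLevel W p k := fun h => hpN (h.trans hBN)
    have h := aeval_heckeEnd_eigenClasses_eq_zero N p ι σ (goodSet W p k) U.a e' he'
      (X - C (e' p)) (X - C (U.a p)) (by simp [he p hp hpB]) (fun f hf => by
        simp only [Polynomial.map_sub, Polynomial.map_X, Polynomial.map_C, map_sub, aeval_X,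
          aeval_C, LinearMap.sub_apply, Module.algebraMap_end_apply]
        rw [HK.heckeFormsLin, dif_neg hpN, hgood f hf p hp hpN, hgl p hp hpB, sub_self]) hx
    simpa [sub_eq_zero] using h
  · subst hk
    have hpB : ¬ p ∣ baseLevel W p Kind.ord := not_dvd_baseLevel_p hp
    set N₀ := minLevel W p * (∏ q ∈ raisePrimes W p, q) ^ 2 with hN₀
    have hK : N = N₀ * p := by rw [hN, fullLevel, Kind.pExp, pow_one]
    have : NeZero N₀ := ⟨fun h => NeZero.ne N (by rw [hK, h, zero_mul])⟩
    have hpN₀ : ¬ p ∣ N₀ := by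
      have := not_dvd_fullLevel_of_flat (W := W) hp
      rwa [fullLevel, Kind.pExp, pow_zero, mul_one] at this
    refine aeval_heckeEnd_eigenClasses_eq_zero N p ι σ (goodSet W p _) U.a e' he'
      (X ^ 2 - C (e' p) * X + C (p : F)) _ (by simp [he p hp hpB]) (fun f hf => ?_) hx
    refine ext_qCoeff fun n => ?_
    have h := qCoeff_rec_one hg.1 hp (fun d => hpB (d.trans hMB)) hpN₀ hK (hspan f hf) n
    simp only [Polynomial.map_add, Polynomial.map_sub, Polynomial.map_mul, Polynomial.map_pow,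
      Polynomial.map_X, Polynomial.map_C, map_add, map_sub, map_mul, map_pow, aeval_X,
      aeval_C, LinearMap.add_apply, LinearMap.sub_apply, Module.End.mul_apply, sq,
      Module.algebraMap_end_apply]
    simp only [qCoeff_add, qCoeff_sub, qCoeff_smul, hU p (hK ▸ dvd_mul_left p N₀), qCoeff_zero_fun,
      FunLike.coe_zero, map_natCast, ← hgl p hp hpB]
    linear_combination h
  · have hqp := prime_of_mem_raisePrimes W p hq
    have hqB : ¬ q ∣ baseLevel W p k := not_dvd_baseLevel hp hq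
    set N₀ := minLevel W p * (∏ r ∈ (raisePrimes W p).erase q, r) ^ 2 * p ^ k.pExp with hN₀
    have hK : N = N₀ * q * q := by
      rw [hN, fullLevel, ← Finset.mul_prod_erase _ _ hq, hN₀]
      ring
    have : NeZero N₀ := ⟨fun h => NeZero.ne N (by rw [hK, h, zero_mul, zero_mul])⟩
    have hqN₀ : ¬ q ∣ N₀ := by
      intro h
      rcases hqp.dvd_mul.mp h with h | h
      · rcases hqp.dvd_mul.mp h with h | h
        · exact hqB (h.mul_right _)
        · obtain ⟨x, hx', hqx⟩ := (hqp.prime.dvd_finsetProd_iff _).mp (hqp.dvd_of_dvd_pow h)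
          obtain ⟨hne, hxR⟩ := Finset.mem_erase.mp hx'
          exact hne ((Nat.prime_dvd_prime_iff_eq hqp (prime_of_mem_raisePrimes W p hxR)).mp hqx).symm
      · exact p_notMem_raisePrimes
          ((Nat.prime_dvd_prime_iff_eq hqp hp).mp (hqp.dvd_of_dvd_pow h) ▸ hq)
    refine aeval_heckeEnd_eigenClasses_eq_zero N q ι σ (goodSet W p k) U.a e' he'
      (X ^ 3 - C (e' q) * X ^ 2 + C (q : F) * X) _ (by simp [he q hqp hqB]) (fun f hf => ?_) hx
    refine ext_qCoeff fun n => ?_
    have h := qCoeff_rec_two hg.1 hqp (fun d => hqB (d.trans hMB)) hqN₀ hK (hspan f hf) n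
    simp only [Polynomial.map_add, Polynomial.map_sub, Polynomial.map_mul, Polynomial.map_pow,
      Polynomial.map_X, Polynomial.map_C, map_add, map_sub, map_mul, map_pow, aeval_X,
      aeval_C, LinearMap.add_apply, LinearMap.sub_apply, Module.End.mul_apply, pow_succ, pow_zero,
      one_mul, Module.algebraMap_end_apply]
    simp only [qCoeff_add, qCoeff_sub, qCoeff_smul, hU q (hK ▸ dvd_mul_left q _), qCoeff_zero_fun,
      FunLike.coe_zero, map_natCast, ← hgl q hqp hqB]
    linear_combination h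

end Fermat.Agent.R59
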