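/-
Points of reduced orders have nonzero congruence ideals (owner: helper91).

`exists_kill`: if `A` is a reduced order and `χ : A → 𝒪` a point in characteristic zero, then in
every `𝒪`-algebra receiving `A` some element kills all `a - χ a` and has nonzero value at `χ`.
-/
import Mathlib.FieldTheory.Perfect
import Mathlib.RingTheory.Radical.Basic
import Mathlib.RingTheory.Polynomial.UniqueFactorization
import Mathlib.RingTheory.Localization.Integral
import Mathlib.RingTheory.Finiteness.Defs
import Mathlib.Tactic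

set_option autoImplicit false

noncomputable section

open Polynomial

namespace Fermat.Agent.R59

variable {A : Type*} [CommRing A] [IsReduced A] [IsAddTorsionFree A] [Module.Finite ℤ A]
  {𝒪 : Type*} [CommRing 𝒪] [IsDomain 𝒪] [CharZero 𝒪]

/-- An element of a reduced order is killed by an integral polynomial without repeated roots. -/
theorem exists_separable_poly (b : A) :
    ∃ R : ℤ[X], (R.map (Int.castRingHom ℚ)).Separable ∧ aeval b R = 0 := by
  obtain ⟨P, hP, hP0⟩ := IsIntegral.of_finite ℤ b
  set PQ := P.map (Int.castRingHom ℚ) with hPQ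
  have hPQ0 : PQ ≠ 0 := (hP.map _).ne_zero
  set R := UniqueFactorizationMonoid.radical PQ
  obtain ⟨n, H, hH⟩ := UniqueFactorizationMonoid.exists_dvd_radical_self_pow hPQ0
  obtain ⟨d, hd, hRd⟩ := IsLocalization.integerNormalization_spec (nonZeroDivisors ℤ) R
  obtain ⟨h, hh, hHh⟩ := IsLocalization.integerNormalization_spec (nonZeroDivisors ℤ) H
  set RZ := IsLocalization.integerNormalization (nonZeroDivisors ℤ) R
  set HZ := IsLocalization.integerNormalization (nonZeroDivisors ℤ) H
  rw [algebraMap_int_eq] at hRd hHh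
  change RZ.map _ = d • R at hRd
  change HZ.map _ = h • H at hHh
  rw [zsmul_eq_mul] at hRd hHh
  have hd0 : d ≠ 0 := nonZeroDivisors.ne_zero hd
  have hh0 : h ≠ 0 := nonZeroDivisors.ne_zero hh
  refine ⟨RZ, ?_, ?_⟩
  · rw [hRd, show ((d : ℤ) : ℚ[X]) = C (d : ℚ) by rw [map_intCast],
      PerfectField.separable_iff_squarefree]
    have hu : IsUnit (C (d : ℚ)) :=
      isUnit_C.mpr (isUnit_iff_ne_zero.mpr (Int.cast_ne_zero.mpr hd0))
    exact UniqueFactorizationMonoid.squarefree_radical.squarefree_of_dvd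
      ((hu.mul_left_dvd).mpr dvd_rfl)
  · have key : C h * RZ ^ n = C (d ^ n) * (P * HZ) := by
      apply Polynomial.map_injective (Int.castRingHom ℚ) Int.cast_injective
      simp only [Polynomial.map_mul, eq_intCast, map_pow, Polynomial.map_pow, Polynomial.map_intCast, hRd, hHh, ← hPQ,
        mul_pow]
      linear_combination ((h : ℚ[X]) * (d : ℚ[X]) ^ n) * hH
    have h1 := congrArg (aeval b) key
    simp only [map_mul, map_pow, aeval_C, show aeval b P = 0 from hP0, zero_mul, mul_zero] at h1
    rw [algebraMap_int_eq, eq_intCast, ← zsmul_eq_mul] at h1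
    exact IsReduced.eq_zero _ ⟨n, by
      rcases smul_eq_zero.mp h1 with h2 | h2
      · exact absurd h2 hh0
      · exact h2⟩

/-- A factor killing `b - χ b` with nonzero value at `χ`. -/
theorem exists_kill_single (b : A) (χ : A →+* 𝒪) :
    ∃ ν : 𝒪[X], ν.eval (χ b) ≠ 0 ∧ ∀ {B : Type*} [CommRing B] [Algebra 𝒪 B] (f : A →+* B),
      aeval (f b) ν * (f b - algebraMap 𝒪 B (χ b)) = 0 := by
  obtain ⟨R, hsep, hR⟩ := exists_separable_poly b
  set RO := R.map (Int.castRingHom 𝒪) with hRO
  have hroot : RO.IsRoot (χ b) := by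
    have h := congrArg χ hR
    rw [aeval_def, Polynomial.hom_eval₂, map_zero] at h
    rw [IsRoot.def, hRO, Polynomial.eval_map, ← h]
    exact congrArg (fun φ => Polynomial.eval₂ φ (χ b) R) (RingHom.ext_int _ _)
  refine ⟨RO /ₘ (X - C (χ b)), ?_, fun {B} _ _ f => ?_⟩
  · have hfac : (X - C (χ b)) * (RO /ₘ (X - C (χ b))) = RO :=
      mul_divByMonic_eq_iff_isRoot.mpr hroot
    have hd : RO.derivative.eval (χ b) = (RO /ₘ (X - C (χ b))).eval (χ b) := by
      conv_lhs => rw [← hfac]
      simp [derivative_mul]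
    rw [← hd]
    intro h0
    have : CharZero (FractionRing 𝒪) :=
      charZero_of_injective_algebraMap (IsFractionRing.injective 𝒪 (FractionRing 𝒪))
    have hK : RO.map (algebraMap 𝒪 (FractionRing 𝒪)) =
        (R.map (Int.castRingHom ℚ)).map (algebraMap ℚ (FractionRing 𝒪)) := by
      rw [hRO, Polynomial.map_map, Polynomial.map_map]
      exact congrArg (fun φ => R.map φ) (RingHom.ext_int _ _)
    have hs : (RO.map (algebraMap 𝒪 (FractionRing 𝒪))).Separable := hK ▸ hsep.map
    refine hs.eval₂_derivative_ne_zero (RingHom.id _) (x := algebraMap 𝒪 _ (χ b)) ?_ ?_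
    · rw [Polynomial.eval₂_id, Polynomial.eval_map_apply, hroot, map_zero]
    · rw [Polynomial.eval₂_id, Polynomial.derivative_map, Polynomial.eval_map_apply, h0, map_zero]
  · have hfac : (X - C (χ b)) * (RO /ₘ (X - C (χ b))) = RO :=
      mul_divByMonic_eq_iff_isRoot.mpr hroot
    have h0 : aeval (f b) RO = 0 := by
      have h := congrArg f hR
      rw [aeval_def, Polynomial.hom_eval₂, map_zero] at h
      rw [aeval_def, hRO, Polynomial.eval₂_map, ← h]
      exact congrArg (fun φ => Polynomial.eval₂ φ (f b) R) (RingHom.ext_int _ _)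
    rw [mul_comm, show f b - algebraMap 𝒪 B (χ b) = aeval (f b) (X - C (χ b)) by simp, ← map_mul,
      hfac, h0]

/-- **An element killing the kernel of a point.** -/
theorem exists_kill {B : Type*} [CommRing B] [Algebra 𝒪 B] (f : A →+* B) (χ : A →+* 𝒪)
    (π : B →ₐ[𝒪] 𝒪) (hπ : ∀ a, π (f a) = χ a) :
    ∃ t : B, π t ≠ 0 ∧ ∀ a, t * (f a - algebraMap 𝒪 B (χ a)) = 0 := by
  classical
  choose ν hν0 hν using fun b : A => exists_kill_single (𝒪 := 𝒪) b χ
  obtain ⟨s, hs⟩ := (Module.finite_def (R := ℤ) (M := A)).mp inferInstance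
  refine ⟨∏ b ∈ s, aeval (f b) (ν b), ?_, fun a => ?_⟩
  · rw [map_prod, Finset.prod_ne_zero_iff]
    intro b _
    rw [← Polynomial.aeval_algHom_apply, hπ, Polynomial.coe_aeval_eq_eval]
    exact hν0 b
  · have ha : a ∈ Submodule.span ℤ (s : Set A) := hs ▸ Submodule.mem_top
    induction ha using Submodule.span_induction with
    | mem b hb =>
      rw [← Finset.mul_prod_erase s _ hb, mul_comm (aeval (f b) (ν b)), mul_assoc, hν b f, mul_zero]
    | zero => simp
    | add x y _ _ hx hy =>
      rw [map_add, map_add, map_add, add_sub_add_comm, mul_add, hx, hy, add_zero]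
    | smul c x _ hx =>
      rw [map_zsmul, map_zsmul, map_zsmul, ← smul_sub, mul_smul_comm, hx, smul_zero]

end Fermat.Agent.R59
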