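/-
Maps out of the local Hecke ring and its congruence ideals (owner: helper91).
-/
import Fermat.Agent.R59.Top.CongIdeal
import Fermat.Agent.NumCrit.Defs
import Fermat.Agent.Eigen.Points
import Fermat.Agent.MF.IntStruct.Main
import Fermat.Agent.Petersson.CuspForm
import Fermat.Prelude.Def_CuspForm_HeckeLocal

set_option autoImplicit false
set_option linter.unusedSectionVars false
set_option synthInstance.maxHeartbeats 400000

noncomputable section

open IsLocalRing CuspForm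
open scoped TensorProduct

namespace Fermat.Agent.R59

variable (N : ℕ) [NeZero N] (S : Set ℕ) {𝒪 : Type} [CommRing 𝒪] [IsDomain 𝒪]
  [IsDiscreteValuationRing 𝒪] [IsAdicComplete (maximalIdeal 𝒪) 𝒪]
  (θ : CuspForm.heckeAlgebra N 2 S →+* ResidueField 𝒪)

omit [IsAdicComplete (maximalIdeal 𝒪) 𝒪] in
theorem heckeLocal_algebraMap_latticeBaseChange_tmul (c : 𝒪) (t : CuspForm.heckeAlgebra N 2 S) :
    algebraMap (heckeBaseAlgebra N S 𝒪) (heckeLocal N S 𝒪 θ) (latticeBaseChange N S 𝒪 (c ⊗ₜ t)) =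
      algebraMap 𝒪 (heckeLocal N S 𝒪 θ) c * heckeLocal.π N S 𝒪 θ t := by
  have e : (c ⊗ₜ[ℤ] t : 𝒪 ⊗[ℤ] CuspForm.heckeAlgebra N 2 S) =
      algebraMap 𝒪 _ c * (1 ⊗ₜ[ℤ] t) := by
    rw [Algebra.TensorProduct.algebraMap_apply, Algebra.algebraMap_self, RingHom.id_apply,
      Algebra.TensorProduct.tmul_mul_tmul, mul_one, one_mul]
  rw [e, map_mul, map_mul, latticeBaseChange_algebraMap, ← IsScalarTower.algebraMap_apply]
  rfl

/-- **Maps out of the local Hecke ring.** -/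
theorem exists_heckeLocal_hom [hint : Fact (HasIntegralStructure N 2)] {Q : Type} [CommRing Q]
    [Algebra 𝒪 Q] (g : CuspForm.heckeAlgebra N 2 S →+* Q) (res : Q →+* ResidueField 𝒪)
    (hres : ∀ c : 𝒪, res (algebraMap 𝒪 Q c) = residue 𝒪 c) (hg : ∀ t, res (g t) = θ t)
    (hunit : ∀ x : Q, res x ≠ 0 → IsUnit x) :
    ∃ Λ : heckeLocal N S 𝒪 θ →ₐ[𝒪] Q, ∀ t, Λ (heckeLocal.π N S 𝒪 θ t) = g t := by
  let eqv := AlgEquiv.ofBijective (latticeRestrictHom N S)
    (latticeRestrictHom_bijective N S hint.out)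
  let Φ : heckeBaseAlgebra N S 𝒪 →ₐ[𝒪] Q :=
    Algebra.TensorProduct.lift (Algebra.ofId 𝒪 Q) (g.toIntAlgHom.comp eqv.symm.toAlgHom)
      fun _ _ => Commute.all _ _
  have hΦ : ∀ (c : 𝒪) (t : CuspForm.heckeAlgebra N 2 S),
      Φ (latticeBaseChange N S 𝒪 (c ⊗ₜ t)) = algebraMap 𝒪 Q c * g t := fun c t => by
    rw [latticeBaseChange_tmul]
    refine (Algebra.TensorProduct.lift_tmul _ _ _ _ _).trans ?_
    show algebraMap 𝒪 Q c * g (eqv.symm (latticeRestrictHom N S t)) = _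
    rw [show latticeRestrictHom N S t = eqv t from rfl, AlgEquiv.symm_apply_apply]
  have hΦres : ∀ w, res (Φ (latticeBaseChange N S 𝒪 w)) = residualCharacter N S 𝒪 θ w := by
    intro w
    induction w using TensorProduct.induction_on with
    | zero => simp only [map_zero]
    | tmul c t => rw [hΦ, map_mul, hres, hg, residualCharacter_tmul]
    | add x y hx hy => simp only [map_add, hx, hy]
  have hu : ∀ y : heckeLocalSubmonoid N S 𝒪 θ, IsUnit (Φ y) := by
    rintro ⟨_, w, hw, rfl⟩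
    refine hunit _ fun h => hw ?_
    rw [SetLike.mem_coe, mem_heckeCharKernel_iff, ← hΦres]
    exact h
  refine ⟨IsLocalization.liftAlgHom hu, fun t => (IsLocalization.lift_eq hu _).trans ?_⟩
  show Φ (latticeBaseChange N S 𝒪 (1 ⊗ₜ t)) = g t
  rw [hΦ, map_one, one_mul]

/-- **The congruence ideal of a point of the local Hecke ring is nonzero.** -/
theorem congIdeal_heckeLocal_ne_bot [CharZero 𝒪]
    (hS : ∀ q : ℕ, q.Prime → q ∣ N → q ∈ S) (π : heckeLocal N S 𝒪 θ →ₐ[𝒪] 𝒪) :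
    NumCrit.congIdeal π ≠ ⊥ := by
  have := Petersson.isReduced_heckeAlgebra (N := N) (k := 2) hS
  have := Eigen.moduleFinite_heckeAlgebra (MF.IntStruct.hasIntegralStructure N 2) S
  obtain ⟨t, ht0, ht⟩ := exists_kill (𝒪 := 𝒪) (heckeLocal.π N S 𝒪 θ)
    ((π : heckeLocal N S 𝒪 θ →+* 𝒪).comp (heckeLocal.π N S 𝒪 θ)) π fun _ => rfl
  have hall : ∀ w, t * (algebraMap (heckeBaseAlgebra N S 𝒪) (heckeLocal N S 𝒪 θ)
      (latticeBaseChange N S 𝒪 w) - algebraMap 𝒪 _ (π (algebraMap (heckeBaseAlgebra N S 𝒪)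
        (heckeLocal N S 𝒪 θ) (latticeBaseChange N S 𝒪 w)))) = 0 := by
    intro w
    induction w using TensorProduct.induction_on with
    | zero => simp
    | tmul c s =>
      simp only [heckeLocal_algebraMap_latticeBaseChange_tmul, map_mul, π.commutes,
        Algebra.algebraMap_self, RingHom.id_apply]
      rw [← mul_sub, mul_left_comm]
      exact mul_eq_zero_of_right _ (ht s)
    | add x x' hx hx' =>
      simp only [map_add]
      rw [add_sub_add_comm, mul_add, hx, hx', add_zero]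
  refine (Submodule.ne_bot_iff _).2 ⟨π t, NumCrit.mem_congIdeal.2 ⟨t, fun y hy => ?_, rfl⟩, ht0⟩
  obtain ⟨⟨z, u⟩, hzu⟩ := IsLocalization.surj (heckeLocalSubmonoid N S 𝒪 θ) y
  obtain ⟨w, rfl⟩ := latticeBaseChange_surjective N S 𝒪 z
  have hz := hall w
  rw [← hzu, map_mul, hy, zero_mul, map_zero, sub_zero, ← mul_assoc] at hz
  exact (IsLocalization.map_units (heckeLocal N S 𝒪 θ) u).mul_left_eq_zero.mp hz

end Fermat.Agent.R59
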