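/-
`StmtTopModule`: the module of full level (owner: helper91).

`M = e H(fullLevel, 𝒪)` with `e` the idempotent of the top eigen system in the algebra of all
operators at primes not dividing the base level, `B` the twisted pairing.
-/
import Fermat.Agent.R59.TopSplit
import Fermat.Agent.R59.Top.Algebra
import Fermat.Agent.R59.Top.GoodClasses
import Fermat.Agent.R59.Top.Local
import Fermat.Agent.TW.Mod.Idempotent

set_option autoImplicit false
set_option synthInstance.maxHeartbeats 400000

noncomputable section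

open IsLocalRing Polynomial Function
open scoped IsMulCommutative

namespace Fermat.Agent.R59

variable {W : WeierstrassCurve ℤ} {p : ℕ} {k : Kind}

theorem mem_fullSet_of_dvd_baseLevel (hp : p.Prime) {l : ℕ} (hl : l.Prime)
    (h : l ∣ baseLevel W p k) : l ∈ fullSet W p :=
  mem_fullSet_of_dvd_fullLevel hp hl (h.trans (baseLevel_dvd_fullLevel W p k))

theorem topValue_of_notMem (U : Setup W p k) {l : ℕ} (h : l ∉ fullSet W p) :
    U.topValue l = U.a l := by
  rw [Setup.topValue, if_neg fun hR => h (Finset.mem_insert_of_mem (Finset.mem_union_right _ hR)),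
    if_neg fun hk : k = .ord ∧ l = p => h (hk.2 ▸ Finset.mem_insert_self _ _)]

section Core

variable (U : Setup W p k) [NeZero (fullLevel W p k)] (hp : p.Prime)

/-- The Hecke algebra of full level inside the algebra of operators. -/
def topAlgToOp : TopAlg W p k →+* opAlg U :=
  ((HK.heckeAct (fullLevel W p k) U.𝒪).comp
    (Subalgebra.inclusion (CuspForm.heckeAlgebra_mono (Set.empty_subset _))).toRingHom).codRestrict
    (opAlg U) fun t => heckeAct_mem_opAlg
      (fun _ hl hd => mem_fullSet_of_dvd_baseLevel hp hl hd) t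

theorem topAlgToOp_T {l : ℕ} (hl : l.Prime) (hlN : ¬ l ∣ fullLevel W p k)
    (hlS : l ∉ (↑(fullSet W p) : Set ℕ)) :
    (topAlgToOp U hp (CuspForm.heckeAlgebra.T hl hlN hlS)).1 =
      (haveI := Fact.mk hl; HK.heckeEnd (fullLevel W p k) l U.𝒪) := by
  have : Fact l.Prime := ⟨hl⟩
  rw [← HK.heckeAct_heckeFormsGen (fullLevel W p k) U.𝒪 ⟨l, hl⟩]
  refine congrArg (HK.heckeAct (fullLevel W p k) U.𝒪) (Subtype.ext ?_)
  unfold CuspForm.heckeFormsGen
  simp only [hlN, ↓reduceDIte]
  rfl

include hp in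
/-- On the range of the idempotent, good eigenvectors are top eigenvectors. -/
theorem mem_topEigen_of_good [NeZero (baseLevel W p k)] (χ : opAlg U →ₐ[U.𝒪] U.𝒪)
    (hχ : ∀ (l : ℕ) [Fact l.Prime] (h : ¬ l ∣ baseLevel W p k),
      χ ⟨_, heckeEnd_mem_opAlg h⟩ = U.topValue l)
    (e : opAlg U) (hinv : ∀ a, IsUnit (χ a) → ∃ v, v * a * e = e)
    {x : HK.HSpace (fullLevel W p k) U.𝒪} (hex : e.1 x = x)
    (hx : ∀ l ∈ goodSet W p k, ∀ [Fact l.Prime],
      HK.heckeEnd (fullLevel W p k) l U.𝒪 x = U.a l • x) : x ∈ U.topEigen := by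
  classical
  have hxE : x ∈ eigenClasses (fullLevel W p k) U.𝒪 (goodSet W p k) U.a :=
    (mem_eigenClasses _ _).mpr hx
  obtain ⟨hflat, hord, hraise⟩ := goodClasses_relations U hp hxE
  have hfix : ∀ a : opAlg U, e.1 (a.1 x) = a.1 x := fun a => by
    show (e * a).1 x = a.1 x
    rw [mul_comm e a]
    show a.1 (e.1 x) = a.1 x
    rw [hex]
  have hcancel : ∀ (b : opAlg U) (y : HK.HSpace (fullLevel W p k) U.𝒪),
      IsUnit (χ b) → e.1 y = y → b.1 y = 0 → y = 0 := fun b y hb hey hby => by
    obtain ⟨v, hv⟩ := hinv b hb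
    have h : (v * b * e).1 y = v.1 (b.1 (e.1 y)) := rfl
    rw [hv, hey, hby, map_zero] at h
    exact h
  refine (mem_eigenClasses _ _).mpr fun l hlB hf => ?_
  have hlB : ¬ l ∣ baseLevel W p k := hlB
  set u : opAlg U := ⟨_, heckeEnd_mem_opAlg (U := U) hlB⟩ with hu
  have hχu : χ u = U.topValue l := hχ l hlB
  by_cases hlR : l ∈ raisePrimes W p
  · have htv : U.topValue l = 0 := by rw [Setup.topValue, if_pos hlR]
    rw [htv, zero_smul]
    set b : opAlg U := u ^ 2 - algebraMap U.𝒪 _ (U.a l) * u + algebraMap U.𝒪 _ (l : U.𝒪)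
    have hb : IsUnit (χ b) := by
      have e1 : χ b = (l : U.𝒪) := by simp [b, hχu, htv]
      rw [e1]
      by_contra hun
      have h0 : (l : ResidueField U.𝒪) = 0 := by
        rw [← map_natCast (residue U.𝒪)]
        exact (residue_eq_zero_iff _).mpr ((mem_maximalIdeal _).mpr hun)
      have := charP_residueField U hp
      exact ne_of_mem_raisePrimes hlR ((Nat.prime_dvd_prime_iff_eq hp hf.out).mp
        ((CharP.cast_eq_zero_iff (ResidueField U.𝒪) p l).mp h0)).symm
    refine hcancel b _ hb (hfix u) ?_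
    have h := hraise l hlR
    simp only [map_add, map_sub, map_mul, map_pow, aeval_X, aeval_C] at h
    rw [← h]
    show (b * u).1 x = _
    simp only [b, hu, MulMemClass.coe_mul, AddMemClass.coe_add, AddSubgroupClass.coe_sub,
      Subalgebra.coe_algebraMap, add_mul, sub_mul, pow_succ, pow_zero,
      one_mul, mul_assoc]
  · by_cases hkl : k = .ord ∧ l = p
    · obtain ⟨hk, rfl⟩ := hkl
      obtain ⟨hαu, hα, -⟩ := U.alpha_spec hk
      have htv : U.topValue l = U.α := by rw [Setup.topValue, if_neg hlR, if_pos ⟨hk, rfl⟩]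
      rw [htv]
      set b : opAlg U := u - algebraMap U.𝒪 _ (U.a l - U.α)
      have hb : IsUnit (χ b) := by
        have e1 : χ b * U.α = U.α ^ 2 - (l : U.𝒪) := by
          simp only [b, map_sub, hχu, htv, AlgHom.commutes, Algebra.algebraMap_self,
            RingHom.id_apply]
          linear_combination hα
        refine isUnit_of_mul_isUnit_left (y := U.α) ?_
        rw [e1]
        by_contra hun
        have h' := add_mem ((mem_maximalIdeal _).mpr hun) U.p_mem
        rw [sub_add_cancel] at h'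
        exact (mem_maximalIdeal _).mp h' (hαu.pow 2)
      refine sub_eq_zero.mp (hcancel b _ hb ?_ ?_)
      · rw [map_sub, map_smul, hfix u, hex]
      · have h := hord hk
        simp only [map_add, map_sub, map_mul, aeval_X, aeval_C, LinearMap.add_apply,
          LinearMap.sub_apply, Module.End.mul_apply, sq, Module.algebraMap_end_apply] at h
        rw [← h]
        show (HK.heckeEnd (fullLevel W l k) l U.𝒪 -
          algebraMap U.𝒪 (Module.End U.𝒪 (HK.HSpace (fullLevel W l k) U.𝒪)) (U.a l - U.α))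
            (HK.heckeEnd (fullLevel W l k) l U.𝒪 x - U.α • x) = _
        have hl' : (l : U.𝒪) = U.a l * U.α - U.α * U.α := by linear_combination hα
        simp only [LinearMap.sub_apply, Module.algebraMap_end_apply, map_sub, map_smul, hl']
        module
    · have htv : U.topValue l = U.a l := by rw [Setup.topValue, if_neg hlR, if_neg hkl]
      rw [htv]
      by_cases hlN : l ∣ fullLevel W p k
      · -- the primes of the level not dividing the base level are raised or `p`
        refine absurd ?_ hkl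
        have hlS := mem_fullSet_of_dvd_fullLevel hp hf.out hlN
        rcases Finset.mem_insert.mp hlS with h | h
        · refine ⟨?_, h⟩
          cases k
          · exact absurd (h ▸ hlN) (not_dvd_fullLevel_of_flat hp)
          · refine absurd ?_ hlB
            rw [h]
            exact dvd_mul_of_dvd_right (dvd_pow_self _ (by simp [Kind.base, Kind.pExp])) _
          · rfl
        · rcases Finset.mem_union.mp h with h | h
          · exact absurd ((Finset.dvd_prod_of_mem (fun q => q) h).trans (dvd_mul_right _ _)) hlB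
          · exact absurd h hlR
      · by_cases hlS : l ∈ fullSet W p
        · obtain rfl := eq_of_not_mem_goodSet hlN hlS
          exact hflat hlN
        · exact hx l ⟨hlN, hlS⟩

end Core

set_option maxHeartbeats 2000000 in
/-- **`StmtTopModule`.** -/
theorem stmtTopModule : StmtTopModule := by
  intro W p k hC U _ _
  classical
  have hp : p.Prime := by rcases hC.1 with rfl | rfl <;> norm_num
  have : NeZero (baseLevel W p k) := ⟨fun h0 => NeZero.ne (fullLevel W p k)
    (Nat.eq_zero_of_zero_dvd (h0 ▸ baseLevel_dvd_fullLevel W p k))⟩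
  set N := fullLevel W p k
  have := finite_hSpace (𝒪 := U.𝒪) N
  have := free_hSpace (𝒪 := U.𝒪) N
  -- a vector of the top eigen lattice
  obtain ⟨x₀, hx₀, h0⟩ : ∃ x ∈ U.topEigen, x ≠ 0 := by
    refine (Submodule.ne_bot_iff _).1 fun hb => ?_
    have h := (stmtRaise W p k hC U).1
    rw [hb, finrank_bot] at h
    exact finrank_baseEigen_ne_zero U h.symm
  obtain ⟨χ, hχ⟩ := exists_char_opAlg (U := U) hx₀ h0
  have huniq : ∀ u v : U.𝒪, u • x₀ = v • x₀ → u = v := fun u v h => by
    by_contra hne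
    refine h0 (hSpace_smul_cancel (sub_ne_zero.mpr hne) ?_)
    rw [smul_zero, sub_smul, h, sub_self]
  have hχgen : ∀ (l : ℕ) [Fact l.Prime] (h : ¬ l ∣ baseLevel W p k),
      χ ⟨_, heckeEnd_mem_opAlg h⟩ = U.topValue l := fun l _ h =>
    huniq _ _ ((hχ _ x₀ hx₀).symm.trans ((mem_eigenClasses _ _).mp hx₀ l h))
  -- the idempotent
  have : Module.Finite U.𝒪 (opAlg U) := TW.Mod.finite_subalgebra_end _
  let χbar : opAlg U →+* ResidueField U.𝒪 := (residue U.𝒪).comp χ.toRingHom
  have := RingHom.ker_isMaximal_of_surjective χbar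
    (residue_surjective.comp (NumCrit.aug_surjective χ))
  obtain ⟨e, hee, hem, -, hinv⟩ := TW.Mod.exists_idempotent_of_maximal (𝒪 := U.𝒪) (RingHom.ker χbar)
  have hnot : ∀ a, IsUnit (χ a) → a ∉ RingHom.ker χbar := fun a ha h =>
    (mem_maximalIdeal _).mp ((residue_eq_zero_iff _).mp (RingHom.mem_ker.mp h)) ha
  have hχe : χ e = 1 := by
    have h2 : χ e * χ e = 1 * χ e := by rw [← map_mul, hee, one_mul]
    rcases eq_or_ne (χ e) 0 with h | h
    · exact absurd (RingHom.mem_ker.mpr (show residue U.𝒪 (χ e) = 0 by rw [h, map_zero])) hem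
    · exact mul_right_cancel₀ h h2
  let J : Ideal (opAlg U) := Ideal.span {1 - e}
  let Msub : Submodule (opAlg U) (HK.HSpace N U.𝒪) :=
    Submodule.torsionBy (opAlg U) (HK.HSpace N U.𝒪) (1 - e)
  have hmem : ∀ x, x ∈ Msub ↔ e.1 x = x := fun x => by
    show (1 - e) • x = 0 ↔ _
    rw [sub_smul, one_smul, sub_eq_zero]
    exact eq_comm
  let _ : Module (opAlg U ⧸ J) Msub :=
    Module.IsTorsionBySet.module (fun m ⟨a, ha⟩ => by
      obtain ⟨c, rfl⟩ := Ideal.mem_span_singleton'.mp ha
      refine Subtype.ext ?_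
      show (c * (1 - e)) • (m : HK.HSpace N U.𝒪) = 0
      rw [mul_smul, show (1 - e) • (m : HK.HSpace N U.𝒪) = 0 from m.2, smul_zero] :
      Module.IsTorsionBySet (opAlg U) Msub J)
  have hsmul : ∀ (a : opAlg U) (m : Msub), Ideal.Quotient.mk J a • m = a • m := fun _ _ => rfl
  have : IsScalarTower U.𝒪 (opAlg U ⧸ J) Msub := ⟨fun c x m => by
    obtain ⟨a, rfl⟩ := Ideal.Quotient.mk_surjective x
    show Ideal.Quotient.mk J (c • a) • m = c • Ideal.Quotient.mk J a • m
    rw [hsmul, hsmul, smul_assoc]⟩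
  let πQ : (opAlg U ⧸ J) →ₐ[U.𝒪] U.𝒪 := Ideal.Quotient.liftₐ J χ fun a ha => by
    obtain ⟨c, rfl⟩ := Ideal.mem_span_singleton'.mp ha
    rw [map_mul, map_sub, map_one, hχe, sub_self, mul_zero]
  have hπQ : ∀ a, πQ (Ideal.Quotient.mk J a) = χ a := fun _ => rfl
  -- the residual character and the action of the local Hecke ring
  let θ : TopAlg W p k →+* ResidueField U.𝒪 := χbar.comp (topAlgToOp U hp)
  have hχT : ∀ (l : ℕ) (hl : l.Prime) (hlN : ¬ l ∣ N) (hlS : l ∉ (↑(fullSet W p) : Set ℕ)),
      χ (topAlgToOp U hp (CuspForm.heckeAlgebra.T hl hlN hlS)) = U.a l := by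
    intro l hl hlN hlS
    have : Fact l.Prime := ⟨hl⟩
    have hlB : ¬ l ∣ baseLevel W p k := fun h => hlN (h.trans (baseLevel_dvd_fullLevel W p k))
    rw [← topValue_of_notMem U hlS, ← hχgen l hlB]
    exact congrArg χ (Subtype.ext (topAlgToOp_T U hp hl hlN hlS))
  obtain ⟨Λ, hΛ⟩ := exists_heckeLocal_hom (fullLevel W p k) (↑(fullSet W p) : Set ℕ) θ
    ((Ideal.Quotient.mk J).comp (topAlgToOp U hp)) ((residue U.𝒪).comp πQ.toRingHom)
    (fun c => congrArg (residue U.𝒪) (πQ.commutes c)) (fun _ => rfl)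
    (fun x hx => by
      obtain ⟨a, rfl⟩ := Ideal.Quotient.mk_surjective x
      obtain ⟨v, hv⟩ := hinv a fun h => hx (RingHom.mem_ker.mp h)
      have he : Ideal.Quotient.mk J e = 1 := by
        rw [← map_one (Ideal.Quotient.mk J), eq_comm, Ideal.Quotient.eq]
        exact Ideal.mem_span_singleton_self _
      refine isUnit_iff_exists_inv'.mpr ⟨Ideal.Quotient.mk J v, ?_⟩
      rw [← map_mul, ← mul_one (Ideal.Quotient.mk J (v * a)), ← he, ← map_mul, hv])
  let πT : U.TopLocal θ →ₐ[U.𝒪] U.𝒪 := πQ.comp Λ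
  let _ : Module (U.TopLocal θ) Msub := Module.compHom Msub Λ.toRingHom
  have hsmulT : ∀ (t : U.TopLocal θ) (m : Msub), t • m = Λ t • m := fun _ _ => rfl
  have : IsScalarTower U.𝒪 (U.TopLocal θ) Msub := ⟨fun c t m => by
    rw [hsmulT, hsmulT, map_smul, smul_assoc]⟩
  let i : Msub →ₗ[U.𝒪] HK.HSpace N U.𝒪 := Msub.subtype.restrictScalars U.𝒪
  have hi : Injective i := Subtype.val_injective
  have : Module.Finite U.𝒪 Msub := Module.Finite.of_injective i hi
  have : Module.IsTorsionFree U.𝒪 Msub := hi.moduleIsTorsionFree _ fun c m => map_smul i c m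
  have : Module.Free U.𝒪 Msub := Module.free_of_finite_type_torsion_free'
  set L₀ : Submodule U.𝒪 Msub := NumCrit.eigenSub πT Msub with hL₀
  -- the top eigen lattice is the eigen part
  have hback : ∀ x ∈ U.topEigen, ∃ m ∈ L₀, i m = x := fun x hx => by
    have hxM : x ∈ Msub := (hmem x).mpr (by rw [hχ e x hx, hχe, one_smul])
    refine ⟨⟨x, hxM⟩, NumCrit.mem_eigenSub.mpr fun t ht => ?_, rfl⟩
    obtain ⟨a, ha⟩ := Ideal.Quotient.mk_surjective (Λ t)
    rw [hsmulT, ← ha, hsmul]
    refine Subtype.ext ?_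
    show a.1 x = 0
    rw [hχ a x hx, ← hπQ a, ha, show πQ (Λ t) = 0 from ht, zero_smul]
  have hforth : ∀ m ∈ L₀, i m ∈ U.topEigen := fun m hm => by
    refine mem_topEigen_of_good U hp χ hχgen e (fun a ha => hinv a (hnot a ha))
      ((hmem _).mp m.2) fun l hl hf => ?_
    have hlS : l ∉ (↑(fullSet W p) : Set ℕ) := hl.2
    have h := NumCrit.smul_eq_of_mem_eigenSub hm
      (CuspForm.heckeLocal.π N (↑(fullSet W p) : Set ℕ) U.𝒪 θ
        (CuspForm.heckeAlgebra.T hf.out hl.1 hlS))
    rw [hsmulT, show πT _ = πQ (Λ _) from rfl, hΛ, RingHom.comp_apply, hπQ, hsmul,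
      hχT l hf.out hl.1 hlS] at h
    rw [← topAlgToOp_T U hp hf.out hl.1 hlS]
    exact (congrArg i h).trans (map_smul i _ _)
  have hmap : L₀.map i = U.topEigen := le_antisymm
    (Submodule.map_le_iff_le_comap.mpr hforth) fun x hx => by
      obtain ⟨m, hm, rfl⟩ := hback x hx
      exact Submodule.mem_map_of_mem hm
  let B : Msub →ₗ[U.𝒪] Msub →ₗ[U.𝒪] U.𝒪 := (twistedPairing N U.𝒪).compl₁₂ i i
  refine ⟨θ, ⟨{
    isBaseChar := fun l hl hlN hlS => congrArg (residue U.𝒪) (hχT l hl hlN hlS)
    M := Msub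
    B := B
    π := πT
    π_T := fun l hl hlN hlS => by
      show πQ (Λ _) = U.a l
      rw [hΛ, RingHom.comp_apply, hπQ, hχT l hl hlN hlS]
    congIdeal_ne_bot := congIdeal_heckeLocal_ne_bot N _ θ
      (fun q hq hqN => mem_fullSet_of_dvd_fullLevel hp hq hqN) πT
    π_eq_zero_of_smul_eq_zero := fun t ht => by
      obtain ⟨m, hm, hmx⟩ := hback x₀ hx₀
      have h := NumCrit.smul_eq_of_mem_eigenSub hm t
      rw [ht m] at h
      have h' := congrArg i h
      rw [map_zero, map_smul, hmx] at h'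
      exact huniq _ _ (by rw [zero_smul, ← h'])
    adj := fun t m l _ => by
      obtain ⟨a, ha⟩ := Ideal.Quotient.mk_surjective (Λ t)
      rw [hsmulT, hsmulT, ← ha, hsmul, hsmul]
      exact twistedPairing_opAlg a.2 (i m) (i l)
    surj := fun φ => by
      let eL : L₀ ≃ₗ[U.𝒪] U.topEigen :=
        (Submodule.equivMapOfInjective i hi L₀).trans (LinearEquiv.ofEq _ _ hmap)
      obtain ⟨m₀, hm₀⟩ := exists_twistedPairing_eq (N := N) {ℓ | ¬ ℓ ∣ baseLevel W p k}
        U.topValue (φ ∘ₗ eL.symm.toLinearMap)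
      refine ⟨⟨e.1 m₀, (hmem _).mpr (show (e * e).1 m₀ = e.1 m₀ by rw [hee])⟩,
        LinearMap.ext fun l => ?_⟩
      show twistedPairing N U.𝒪 (e.1 m₀) (i l) = φ l
      rw [twistedPairing_opAlg e.2, hχ e (i l) (hforth l l.2), hχe, one_smul]
      refine (hm₀ (eL l)).trans ?_
      exact congrArg φ (eL.symm_apply_apply l)
    finrank_eigenSub := by
      rw [← hmap]
      exact (Submodule.equivMapOfInjective i hi L₀).finrank_eq
    length_congModule := by
      have h := length_congModule_eq_add' B (twistedPairing N U.𝒪) L₀ U.topEigen i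
        (fun x _ hx => hi (hx.trans (map_zero i).symm)) hmap (c := 1)
        fun x _ y _ => (one_mul (B x y)).symm
      rw [Ring.ord_one, mul_zero, add_zero] at h
      exact h.symm }⟩⟩

end Fermat.Agent.R59
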